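import Mathlib
import Fermat.Agent.MUL.Orig.S52.Iface

/-!
# F1 (finite-field core): shared definitions (architect: helper4)

Heights of pairs / triples of polynomials over a field `k`, binary homogenisation, and the
unreduced Manin numerators / denominators.  The biquadratic map is Mathlib's
`WeierstrassCurve.addSubMap` (order: product, sum, one).  No proofs here.
-/

set_option autoImplicit false

open Polynomial

namespace Fermat.Agent.F1

variable {k : Type*} [Field k]

/-- height of `[f : g]` -/
def hpair (f g : k[X]) : ℕ := max f.natDegree g.natDegree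

/-- height of `[a : b : c]` -/
def htriple (a b c : k[X]) : ℕ := max a.natDegree (max b.natDegree c.natDegree)

/-- the triple `(a,b,c)` generates the unit ideal -/
def Cop3 (a b c : k[X]) : Prop := ∃ u v w : k[X], u * a + v * b + w * c = 1

/-- binary homogenisation of degree `n`: `∑ i ≤ n, fᵢ aⁱ b^(n-i)` (so `= bⁿ f(a/b)`). -/
noncomputable def hom2 (n : ℕ) (f a b : k[X]) : k[X] :=
  ∑ i ∈ Finset.range (n + 1), C (f.coeff i) * a ^ i * b ^ (n - i)

/-- the cubic `X³ + A X + B` -/
noncomputable def cubic {R : Type*} [CommRing R] (A B : R) : R[X] := X ^ 3 + C A * X + C B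

/-- unreduced numerator of `x(P - φP)` (sign `+1`) resp. `x(P + φP)` (sign `-1`), `q = ℓ`:
`f (1 ± f^((q-1)/2))² - (X + X^q)(X^q - X)²`. -/
noncomputable def maninNum {R : Type*} [CommRing R] (A B : R) (q : ℕ) (s : R) : R[X] :=
  cubic A B * (1 + C s * cubic A B ^ ((q - 1) / 2)) ^ 2 - (X + X ^ q) * (X ^ q - X) ^ 2

/-- unreduced denominator `(X^q - X)²`. -/
noncomputable def maninDen (R : Type*) [CommRing R] (q : ℕ) : R[X] := (X ^ q - X) ^ 2

end Fermat.Agent.F1
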