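/-
F1 (Frobenius characteristic equation), pure-algebra endgame (helper64).

A function `d : G → ℤ` on an abelian group satisfying the parallelogram law is a quadratic form.
Consequently, if `d` is the degree on `ℤ[φ]`, then `d (φ² - a φ + q) = 0` follows from
`d 1 = 1`, `d φ = q`, `d φ² = q²`, `d (φ² + φ) = q d (φ + 1)`,
`d (φ² - 1) = d (φ - 1) d (φ + 1)` and `a = q + 1 - d (φ - 1)`.
-/
import Mathlib
import Fermat.Agent.MUL.Lib.RedTr.Defs

set_option autoImplicit false

namespace Fermat.Agent.F1Quad

variable {G : Type*} [AddCommGroup G]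

/-- The parallelogram law. -/
def Parallelogram (d : G → ℤ) : Prop :=
  ∀ x y : G, d (x + y) + d (x - y) = 2 * d x + 2 * d y

/-- The polar form of `d`. -/
def polar (d : G → ℤ) (x y : G) : ℤ := d (x + y) - d x - d y

namespace Parallelogram

variable {d : G → ℤ} (h : Parallelogram d)
include h

theorem map_zero : d 0 = 0 := by
  have := h 0 0
  simp only [add_zero, sub_zero] at this
  linarith

theorem map_neg (x : G) : d (-x) = d x := by
  have := h 0 x
  simp only [zero_add, zero_sub] at this
  have h0 := h.map_zero
  linarith

theorem map_sub_comm (x y : G) : d (x - y) = d (y - x) := by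
  rw [← h.map_neg (x - y), neg_sub]

omit h in
theorem polar_comm (x y : G) : polar d x y = polar d y x := by
  unfold polar
  rw [add_comm x y]
  ring

/-- `polar d x y = (d (x+y) - d (x-y)) / 2`, in division-free form. -/
theorem two_polar (x y : G) : 2 * polar d x y = d (x + y) - d (x - y) := by
  unfold polar
  have := h x y
  linarith

theorem polar_add_sub (x z y : G) :
    polar d (x + z) y + polar d (x - z) y = 2 * polar d x y := by
  have e1 := h (x + y) z
  have e2 := h (x - y) z
  have t1 := h.two_polar (x + z) y
  have t2 := h.two_polar (x - z) y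
  have t3 := h.two_polar x y
  have a1 : x + z + y = x + y + z := by abel
  have a2 : x + z - y = x - y + z := by abel
  have a3 : x - z + y = x + y - z := by abel
  have a4 : x - z - y = x - y - z := by abel
  rw [a1, a2] at t1
  rw [a3, a4] at t2
  linarith

theorem polar_zero_left (y : G) : polar d 0 y = 0 := by
  unfold polar
  rw [zero_add, h.map_zero]
  ring

theorem polar_two_smul (x y : G) : polar d (x + x) y = 2 * polar d x y := by
  have := h.polar_add_sub x x y
  rw [sub_self, h.polar_zero_left] at this
  linarith

theorem polar_add_left (u v y : G) : polar d (u + v) y = polar d u y + polar d v y := by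
  have := h.polar_add_sub (u + v) (u - v) y
  have a1 : u + v + (u - v) = u + u := by abel
  have a2 : u + v - (u - v) = v + v := by abel
  rw [a1, a2, h.polar_two_smul, h.polar_two_smul] at this
  linarith

theorem polar_add_right (x u v : G) : polar d x (u + v) = polar d x u + polar d x v := by
  rw [polar_comm, h.polar_add_left, polar_comm u, polar_comm v]

theorem polar_neg_left (x y : G) : polar d (-x) y = - polar d x y := by
  have := h.polar_add_left x (-x) y
  rw [add_neg_cancel, h.polar_zero_left] at this
  linarith

theorem polar_neg_right (x y : G) : polar d x (-y) = - polar d x y := by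
  rw [polar_comm, h.polar_neg_left, polar_comm]

theorem polar_zsmul_left (n : ℤ) (x y : G) : polar d (n • x) y = n * polar d x y := by
  induction n using Int.induction_on with
  | zero => simp [h.polar_zero_left]
  | succ n ih =>
    rw [add_zsmul, one_zsmul, h.polar_add_left, ih]
    ring
  | pred n ih =>
    rw [sub_zsmul, one_zsmul, sub_eq_add_neg, h.polar_add_left, h.polar_neg_left, ih]
    ring

theorem polar_zsmul_right (n : ℤ) (x y : G) : polar d x (n • y) = n * polar d x y := by
  rw [polar_comm, h.polar_zsmul_left, polar_comm]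

theorem polar_self (x : G) : polar d x x = 2 * d x := by
  have := h x x
  rw [sub_self, h.map_zero] at this
  unfold polar
  linarith

omit h in
theorem map_add (x y : G) : d (x + y) = d x + d y + polar d x y := by
  unfold polar
  ring

theorem map_zsmul (n : ℤ) (x : G) : d (n • x) = n ^ 2 * d x := by
  have h1 : polar d (n • x) (n • x) = n * (n * polar d x x) := by
    rw [h.polar_zsmul_left, h.polar_zsmul_right]
  rw [h.polar_self, h.polar_self] at h1
  have : 2 * d (n • x) = 2 * (n ^ 2 * d x) := by rw [h1]; ring
  linarith

/-- Expansion of `d (g - a • f + q • e)`. -/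
theorem map_comb (g f e : G) (a q : ℤ) :
    d (g - a • f + q • e) = d g + a ^ 2 * d f + q ^ 2 * d e
      - a * polar d g f + q * polar d g e - a * q * polar d f e := by
  have e1 : g - a • f + q • e = (g + (-a) • f) + q • e := by
    rw [neg_zsmul, sub_eq_add_neg]
  rw [e1, map_add (d := d), map_add (d := d) g, h.map_zsmul, h.map_zsmul, h.polar_add_left,
    h.polar_zsmul_right, h.polar_zsmul_right, h.polar_zsmul_left, h.polar_zsmul_right]
  ring

/-- **Endgame.** `d (φ² - a φ + q) = 0` with `a = q + 1 - N`. -/
theorem endgame (e f g : G) (q N : ℤ) (he : d e = 1) (hf : d f = q) (hg : d g = q ^ 2)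
    (hgf : d (g + f) = q * d (f + e)) (hge : d (g - e) = d (f - e) * d (f + e))
    (hN : d (f - e) = N) : d (g - (q + 1 - N) • f + q • e) = 0 := by
  -- `d (f + e)`
  have p1 := h f e
  rw [hf, he, hN] at p1
  have hfe : d (f + e) = 2 * q + 2 - N := by linarith
  -- the three polar values
  have B1 : polar d f e = q + 1 - N := by
    unfold polar; rw [hfe, hf, he]; ring
  have B2 : polar d g f = q * (q + 1 - N) := by
    unfold polar; rw [hgf, hfe, hg, hf]; ring
  have p3 := h g e
  rw [hg, he, hge, hN, hfe] at p3
  have B3 : polar d g e = (q + 1 - N) ^ 2 - 2 * q := by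
    unfold polar; rw [hg, he]
    have : d (g + e) = 2 * q ^ 2 + 2 - N * (2 * q + 2 - N) := by linarith
    rw [this]; ring
  rw [h.map_comb, hg, hf, he, B1, B2, B3]
  ring

/-- Expansion of `d (g + 2 • f + e)`. -/
theorem map_comb_sq (g f e : G) :
    d (g + (2 : ℤ) • f + e) = d g + 4 * d f + d e
      + 2 * polar d g f + polar d g e + 2 * polar d f e := by
  rw [map_add (d := d), map_add (d := d) g, h.map_zsmul, h.polar_add_left,
    h.polar_zsmul_right, h.polar_zsmul_left]
  ring

/-- **Endgame, second form** (multiplicativity used once, for `(1 + φ)²`):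
`d (φ² - a φ + q) = 0` with `a = q + 1 - N`. -/
theorem endgame' (e f g : G) (q N : ℤ) (he : d e = 1) (hf : d f = q) (hg : d g = q ^ 2)
    (hgf : d (g + f) = q * d (f + e)) (hsq : d (g + (2 : ℤ) • f + e) = d (f + e) ^ 2)
    (hN : d (f - e) = N) : d (g - (q + 1 - N) • f + q • e) = 0 := by
  have p1 := h f e
  rw [hf, he, hN] at p1
  have hfe : d (f + e) = 2 * q + 2 - N := by linarith
  have B1 : polar d f e = q + 1 - N := by
    unfold polar; rw [hfe, hf, he]; ring
  have B2 : polar d g f = q * (q + 1 - N) := by
    unfold polar; rw [hgf, hfe, hg, hf]; ring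
  have p3 := h.map_comb_sq g f e
  rw [hsq, hfe, hg, hf, he, B1, B2] at p3
  have B3 : polar d g e = (q + 1 - N) ^ 2 - 2 * q := by linarith
  rw [h.map_comb, hg, hf, he, B1, B2, B3]
  ring

end Parallelogram

end Fermat.Agent.F1Quad
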